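import Fermat.Agent.S45.Kum.Wire
import Fermat.Agent.S45.Mod.Ctx
import Fermat.Agent.S45.Mod.Eps
import Fermat.Agent.S45.Mod.ZSys

/-!
# S45 : every `S36.Ctx` extends to a `CtxK`;  the final target of MOD_k in terms of `CtxK`
-/

set_option autoImplicit false
set_option linter.unusedSectionVars false

noncomputable section

open AlgebraicCurve ModularCurve

namespace Fermat.Agent.S45

open Fermat.Agent.RED hiding Kb
open Fermat.Agent.S24 Fermat.Agent.RED.TorsES
open Fermat.Agent.S36 Fermat.Agent.S36.Kum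

/-- every context of S36 extends to a context of S45. -/
theorem exists_ctxK (C : Ctx) : ∃ D : CtxK, D.toCtx = C := by
  classical
  obtain ⟨z, hz, hz1⟩ := exists_zSys C.hq C.ζ C.hζ
  have hE : ∀ k s : ℕ, ∃ E : FN (lv C.M C.q k) →+* LaurentSeries Kb,
      s ≤ k → IsEps C.M C.q z k s E := by
    intro k s
    by_cases hs : s ≤ k
    · obtain ⟨E, hE⟩ := exists_eps C.M C.q C.hq C.hqM hz k s hs
      exact ⟨E, fun _ => hE⟩
    · obtain ⟨E, -⟩ := exists_eps C.M C.q C.hq C.hqM hz k 0 (Nat.zero_le k)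
      exact ⟨E, fun h => absurd h hs⟩
  choose E hE' using hE
  exact ⟨{ toCtx := C, z := z, hz := hz, hz1 := hz1, E := E, hE := hE' }, rfl⟩

/-- **the final target of MOD_k** : the two data on `CtxK`, for the pair of levels `k → k + 1`, `k ≥ 2`, components
`Fin (k + 2)`. -/
def HasDatumCtx : Prop :=
  ∀ (D : CtxK) (k : ℕ), aux D.q ∣ D.M → 2 ≤ k →
    ∃ (G : GeomDatumK D.R D.K (D.Fk (k + 1)) (Fin (k + 2))) (N : NormDatumK G (D.Fk k)),
      G.q = D.q ∧ (∀ g, N.Nα g = normAlong (D.al k) g) ∧ (∀ g, N.Nβ g = normAlong (D.be k) g)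

theorem hasDatumK_of_ctx (h : HasDatumCtx) : HasDatumK := by
  intro C k haux hk
  obtain ⟨D, rfl⟩ := exists_ctxK C
  obtain ⟨G, N, h1, h2, h3⟩ := h D k haux hk
  exact ⟨Fin (k + 2), inferInstance, G, N, h1, h2, h3⟩

/-- the row S45 from `HasDatumCtx`. -/
theorem kumK_of_ctx (h : HasDatumCtx) : KumK := kumK_of_datum (hasDatumK_of_ctx h)

end Fermat.Agent.S45
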