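import Fermat.Agent.S45.Top.Lvl
import Fermat.Agent.S45.Abs.Datum
import Fermat.Agent.S45.Mod.Objects
import Fermat.Agent.S36.Kum.Final

/-!
# S45 : final wiring   `HasDatumK ⟹ KumK`

`HasDatumK` : the modular instance of `GeomDatumK` / `NormDatumK` for the pair of levels `M q^k → M q^(k+1)`, `k ≥ 2`.
`AbsK` : the abstract theorem (`S45/Abs/Steps.lean`), as a hypothesis of the announced shape.
-/

set_option autoImplicit false
set_option linter.style.haveILetI false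
set_option linter.unusedSectionVars false

noncomputable section

open AlgebraicCurve ModularCurve Polynomial

namespace Fermat.Agent.S45

open Fermat.Agent.RED hiding Kb
open Fermat.Agent.S24 Fermat.Agent.RED.TorsES
open Fermat.Agent.S36 Fermat.Agent.S36.Kum

/-- what the modular side has to provide. -/
def HasDatumK : Prop :=
  ∀ (C : Ctx) (k : ℕ), aux C.q ∣ C.M → 2 ≤ k →
    ∃ (ι : Type) (_ : Fintype ι) (D : GeomDatumK C.R C.K (F0 C.A (lv C.M C.q (k + 1))) ι)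
      (N : NormDatumK D (F0 C.A (lv C.M C.q k))), D.q = C.q ∧
      (∀ g, N.Nα g = normAlong (alK C.K C.M C.q k) g) ∧
      (∀ g, N.Nβ g = normAlong (beK C.K C.M C.q k) g)

/-- the shape of the abstract theorem, on the types of the application. -/
def AbsKStmt : Prop :=
  ∀ (C : Ctx) (k : ℕ) (ι : Type) (_ : Fintype ι)
    (D : GeomDatumK C.R C.K (F0 C.A (lv C.M C.q (k + 1))) ι)
    (N : NormDatumK D (F0 C.A (lv C.M C.q k))) (m : ℕ), IsUnit ((m : ℕ) : C.R) → ∀ ζ : C.R,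
    IsPrimitiveRoot ζ m → ∀ g : F0 C.A (lv C.M C.q (k + 1)), g ≠ 0 → Hor C.K m g →
    HasNormsK N m g →
    ∃ (c : C.K) (x : F0 C.A (lv C.M C.q (k + 1))), c ≠ 0 ∧ x ≠ 0 ∧
      g ^ (D.q ^ 2) = algebraMap C.K _ c * x ^ m

theorem kum36_congr (E : IntermediateField ℚ Kb) {N₁ N₂ : ℕ} [h1 : NeZero N₁] [h2 : NeZero N₂]
    (h : N₁ = N₂) (q m Ex : ℕ) [NeZero q] (H : Kum36 E N₁ q m Ex) : Kum36 E N₂ q m Ex := by
  subst h
  have : h1 = h2 := Subsingleton.elim _ _
  subst this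
  exact H

/-- `absK` on the modular datum. -/
theorem kum36_of_datumK (habs : AbsKStmt) (C : Ctx) (k : ℕ) (ι : Type) [Fintype ι]
    (D : GeomDatumK C.R C.K (F0 C.A (lv C.M C.q (k + 1))) ι)
    (N : NormDatumK D (F0 C.A (lv C.M C.q k)))
    (hDq : D.q = C.q) (hα : ∀ g, N.Nα g = normAlong (alK C.K C.M C.q k) g)
    (hβ : ∀ g, N.Nβ g = normAlong (beK C.K C.M C.q k) g)
    (m : ℕ) (hm : m.Coprime C.q) :
    Kum36 (K0 C.A) (lv C.M C.q k) C.q m (C.q ^ 2) := by
  obtain ⟨ζ, hζ⟩ := exists_primitiveRoot_R0 C.hq C.hA hm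
  intro g hg hhor h1 h2
  have key := habs C k ι _ D N m (isUnit_natCast_R0 C.hq C.hA hm) ζ hζ g hg hhor
    ⟨by rw [hα]; exact h1, by rw [hβ]; exact h2⟩
  rw [hDq] at key
  exact key

theorem kumK_of_hasDatumK (habs : AbsKStmt) (h : HasDatumK) : KumK := by
  intro q k _ hq hk
  refine ⟨q ^ 2, pow_ne_zero 2 hq.ne_zero, ?_⟩
  intro A hA M' _ _ hqM' haux m hm
  obtain ⟨ζ, hζ⟩ := HasEnoughRootsOfUnity.exists_primitiveRoot Kb q
  have hζ0 : ζ ≠ 0 := hζ.ne_zero hq.ne_zero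
  let C : Ctx :=
    { A := A, q := q, M := M', hq := hq, hA := hA, hM := NeZero.ne M', hqM := hqM'
      ζ := Units.mk0 ζ hζ0
      hζ := by rw [← IsPrimitiveRoot.coe_units_iff]; exact hζ }
  obtain ⟨ι, _, D, N, hDq, hα, hβ⟩ := h C k haux hk
  exact kum36_congr (K0 A) (lv_eq M' q k) q m (q ^ 2)
    (kum36_of_datumK habs C k ι D N hDq hα hβ m hm)

end Fermat.Agent.S45
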