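import Fermat.Agent.S45.Kum.Final
import Fermat.Agent.S45.Abs.Geom
import Fermat.Agent.S45.Abs.StepV
import Fermat.Agent.S45.Abs.DiffK

/-!
# S45 : the abstract theorem (`StepV + Diff + Geom`) in the shape `AbsKStmt`, and `HasDatumK ⟹ KumK`
-/

set_option autoImplicit false

noncomputable section

namespace Fermat.Agent.S45

open Fermat.Agent.S36

section Abs

variable {R K F : Type*} [CommRing R] [IsDomain R] [IsDiscreteValuationRing R]
    [Field K] [Algebra R K] [IsFractionRing R K]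
    [Field F] [CharZero F] [Algebra R F] [Algebra K F] [IsScalarTower R K F]
    {ι : Type*} [Fintype ι] {D : GeomDatumK R K F ι} {F' : Type*} [Field F'] [Algebra K F']

/-- **[ABS_k]** the abstract core of S45 (assembly of `stepVK`, `diffK_of_ld`, `ld₁`, `ld₂`). -/
theorem absK_wire (N : NormDatumK D F') {m : ℕ} (hm : IsUnit ((m : ℕ) : R)) (ζ : R)
    (hζ : IsPrimitiveRoot ζ m) {g : F} (hg : g ≠ 0) (hhor : Hor K m g) (h : HasNormsK N m g) :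
    ∃ (c : K) (x : F), c ≠ 0 ∧ x ≠ 0 ∧ g ^ (D.q ^ 2) = algebraMap K F c * x ^ m := by
  have hm0 : m ≠ 0 := by
    rintro rfl
    simp at hm
  obtain ⟨c₁, x₁, hc₁, hx₁, hv₁⟩ := stepVK N hm hg h
  have e₁ : algebraMap K F c₁ * g ^ 1 * x₁ ^ m = algebraMap K F c₁ * g * x₁ ^ m := by rw [pow_one]
  have hhor₁ : Hor K m (algebraMap K F c₁ * g * x₁ ^ m) := e₁ ▸ hhor.mul_pow c₁ hc₁ 1 x₁ hx₁
  have hN₁ : HasNormsK N m (algebraMap K F c₁ * g * x₁ ^ m) := e₁ ▸ h.mul_pow c₁ 1 x₁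
  obtain ⟨c₂, x₂, hc₂, hx₂, hfin⟩ := diffK_of_ld N hm ζ hζ
    (fun g hg hh => D.ld₁ hm0 hg hh) (fun g hg hh => D.ld₂ hm0 hg hh) hv₁ hhor₁ hN₁
  set E : ℕ := D.q ^ 2 with hE
  have hcE : algebraMap K F (c₁ ^ E) ≠ 0 := by
    rw [Ne, map_eq_zero]
    exact pow_ne_zero _ hc₁
  have hy : x₁ ^ E ≠ 0 := pow_ne_zero _ hx₁
  refine ⟨c₂ * (c₁ ^ E)⁻¹, x₂ * (x₁ ^ E)⁻¹, mul_ne_zero hc₂ (inv_ne_zero (pow_ne_zero _ hc₁)),
    mul_ne_zero hx₂ (inv_ne_zero hy), ?_⟩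
  have hexpand : (algebraMap K F c₁ * g * x₁ ^ m) ^ E
      = algebraMap K F (c₁ ^ E) * g ^ E * (x₁ ^ E) ^ m := by
    rw [map_pow]; ring
  rw [hexpand] at hfin
  rw [map_mul, map_inv₀, mul_pow, inv_pow]
  have hym : (x₁ ^ E) ^ m ≠ 0 := pow_ne_zero _ hy
  field_simp
  rw [← hfin]
  ring

end Abs

theorem absKStmt : AbsKStmt := fun _ _ _ _ _ N _ hm ζ hζ _ hg hhor h =>
  absK_wire N hm ζ hζ hg hhor h

/-- **the row S45 depends only on `HasDatumK`.** -/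
theorem kumK_of_datum (h : HasDatumK) : KumK := kumK_of_hasDatumK absKStmt h

end Fermat.Agent.S45
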